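import Fermat.Agent.Frob.Qbar

/-!
# Lifting inertia elements to the absolute Galois group
-/

set_option autoImplicit false
set_option linter.style.haveILetI false

namespace Fermat.Agent.Mink

open Fermat.Agent.Frob
open scoped Pointwise

variable {L : Type} [Field L] [CharZero L] [Algebra ℚ L]

/-- criterion for lying in the inertia group in terms of integral elements -/
theorem mem_inertia_of_center [Algebra.IsIntegral ℚ L] (A : ValuationSubring L) {ℓ : ℕ}
    (hℓ : ℓ.Prime) (hA : A.LiesOverPrime ℓ) {g : L ≃ₐ[ℚ] L}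
    (hg : g ∈ MulAction.stabilizer (L ≃ₐ[ℚ] L) (center A))
    (hg' : ∀ b : integralClosure ℤ L, g • b - b ∈ center A) : g ∈ A.inertiaSubgroupIn ℚ := by
  have hdec := mem_decomposition_of_mem_stabilizer_center A hℓ hA hg
  have hgb : ∀ b : L, IsIntegral ℤ b → A.valuation (g b - b) < 1 := by
    intro b hb
    have h1 := hg' ⟨b, hb⟩
    rw [mem_center_iff] at h1
    exact h1
  refine ⟨⟨g, hdec⟩, ?_, rfl⟩
  show _ ∈ MonoidHom.ker _
  rw [MonoidHom.mem_ker]
  ext x
  show (⟨g, hdec⟩ : A.decompositionSubgroup ℚ) • x = x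
  obtain ⟨x, rfl⟩ := IsLocalRing.residue_surjective x
  have halg : IsAlgebraic ℤ (x : L) := by
    have : IsAlgebraic ℚ (x : L) := (Algebra.IsIntegral.isIntegral (R := ℚ) (x : L)).isAlgebraic
    exact (IsFractionRing.isAlgebraic_iff ℤ ℚ L).mpr this
  obtain ⟨b, s, hb, hs, hv, hbs⟩ := exists_isIntegral_mul_eq A hℓ hA x.2 halg
  show IsLocalRing.residue A ((⟨(g : L ≃ₐ[ℚ] L), hdec⟩ : A.decompositionSubgroup ℚ) • x) = _
  rw [← sub_eq_zero, ← map_sub, IsLocalRing.residue_eq_zero_iff]
  refine (A.valuation_lt_one_iff _).mpr ?_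
  show A.valuation (g (x : L) - (x : L)) < 1
  have hgs : A.valuation (g s) = 1 := by
    have h1 := hgb s hs
    have h3 : g s = s + (g s - s) := by ring
    rw [h3, Valuation.map_add_eq_of_lt_left]
    · exact hv
    · rw [hv]; exact h1
  have hkey : (g (x : L) - (x : L)) * g s = (g b - b) - (x : L) * (g s - s) := by
    rw [← hbs, map_mul]; ring
  have h5 : A.valuation ((g (x : L) - (x : L)) * g s) < 1 := by
    rw [hkey]
    refine lt_of_le_of_lt (A.valuation.map_sub _ _) (max_lt (hgb b hb) ?_)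
    rw [map_mul]
    refine mul_lt_one_of_nonneg_of_lt_one_right ?_ zero_le (hgb s hs)
    rw [A.valuation_le_one_iff]
    exact x.2
  rwa [map_mul, hgs, mul_one] at h5

set_option maxHeartbeats 1000000 in
theorem exists_mul_mem_inertia [IsGalois ℚ L] (A : ValuationSubring L) {ℓ : ℕ} (hℓ : ℓ.Prime)
    (hA : A.LiesOverPrime ℓ) (H : Subgroup (L ≃ₐ[ℚ] L)) [H.Normal]
    (hH : IsOpen (H : Set (L ≃ₐ[ℚ] L))) (g : L ≃ₐ[ℚ] L)
    (hg : ∀ b : integralClosure ℤ L, (∀ h ∈ H, h • b = b) → g • b - b ∈ center A) :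
    ∃ h ∈ H, h * g ∈ A.inertiaSubgroupIn ℚ := by
  letI : TopologicalSpace (integralClosure ℤ L) := ⊥
  haveI : DiscreteTopology (integralClosure ℤ L) := ⟨rfl⟩
  haveI : ContinuousSMul (L ≃ₐ[ℚ] L) (integralClosure ℤ L) := continuousSMul_integralClosure
  haveI : ContinuousSMul H (integralClosure ℤ L) :=
    ⟨(continuous_smul (M := L ≃ₐ[ℚ] L) (X := integralClosure ℤ L)).comp
      (continuous_subtype_val.prodMap continuous_id)⟩
  have hHc : IsClosed (H : Set (L ≃ₐ[ℚ] L)) := H.isClosed_of_isOpen hH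
  haveI : CompactSpace H := isCompact_iff_compactSpace.mp hHc.isCompact
  let A' := FixedPoints.subalgebra ℤ (integralClosure ℤ L) H
  have hmem : ∀ b : (integralClosure ℤ L), b ∈ A' ↔ ∀ h ∈ H, h • b = b := by
    intro b
    constructor
    · intro hb h hh; exact hb ⟨h, hh⟩
    · intro hb h; exact hb h h.2
  have hnorm : ∀ (k : L ≃ₐ[ℚ] L) (b : (integralClosure ℤ L)), b ∈ A' → k • b ∈ A' := by
    intro k b hb
    rw [hmem] at hb ⊢
    intro h hh
    have h1 : k⁻¹ * h * k ∈ H := by
      have := (inferInstance : H.Normal).conj_mem h hh k⁻¹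
      simpa using this
    have h2 := hb _ h1
    rw [mul_smul, mul_smul] at h2
    have h3 := congrArg (fun z => k • z) h2
    simpa only [smul_inv_smul] using h3
  haveI : Algebra.IsInvariant A' (integralClosure ℤ L) H := ⟨fun b hb => ⟨⟨b, hb⟩, rfl⟩⟩
  haveI : SMulCommClass H A' (integralClosure ℤ L) := ⟨fun h a b => by
    rw [Algebra.smul_def, Algebra.smul_def, smul_mul']
    congr 1
    exact a.2 h⟩
  -- step 1: `g 𝔔` and `𝔔` lie over the same prime
  have h1 : (g • center A).under A' = (center A).under A' := by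
    ext ⟨b, hb⟩
    rw [Ideal.mem_comap, Ideal.mem_comap]
    show b ∈ g • center A ↔ b ∈ center A
    rw [Ideal.mem_pointwise_smul_iff_inv_smul_mem]
    have h2 := hg (g⁻¹ • b) ((hmem _).mp (hnorm g⁻¹ b hb))
    rw [smul_inv_smul] at h2
    constructor
    · intro h3; have := Ideal.add_mem _ h2 h3; simpa using this
    · intro h3; have := Ideal.sub_mem _ h3 h2; simpa using this
  obtain ⟨⟨h, hh⟩, hgh⟩ := Algebra.IsInvariant.exists_smul_of_under_eq_of_profinite (A := A')
    (G := H) (g • center A) (center A) h1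
  have hgh' : (h * g) • center A = center A := by
    rw [mul_smul]; exact hgh.symm
  set g1 := h * g with hg1
  have hg1b : ∀ b : (integralClosure ℤ L), b ∈ A' → g1 • b - b ∈ center A := by
    intro b hb
    rw [hg1, mul_smul, (hmem _).mp (hnorm g b hb) h hh]
    exact hg b ((hmem _).mp hb)
  -- the action on the residue field
  have hmap : center A = Ideal.map (MulSemiringAction.toRingEquiv (L ≃ₐ[ℚ] L) (integralClosure ℤ L) g1 : (integralClosure ℤ L) →+* (integralClosure ℤ L))
      (center A) := hgh'.symm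
  let φ : ((integralClosure ℤ L) ⧸ center A) ≃ₐ[A' ⧸ (center A).under A'] ((integralClosure ℤ L) ⧸ center A) :=
    AlgEquiv.ofRingEquiv (f := Ideal.quotientEquiv (center A) (center A)
      (MulSemiringAction.toRingEquiv (L ≃ₐ[ℚ] L) (integralClosure ℤ L) g1) hmap) (by
      intro a
      obtain ⟨a, rfl⟩ := Ideal.Quotient.mk_surjective a
      show Ideal.Quotient.mk (center A) (g1 • (a : (integralClosure ℤ L))) = Ideal.Quotient.mk (center A) (a : (integralClosure ℤ L))
      rw [Ideal.Quotient.eq]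
      exact hg1b a a.2)
  obtain ⟨⟨⟨h2, hh2⟩, hst⟩, hφ⟩ := Ideal.Quotient.stabilizerHom_surjective_of_profinite
    (G := H) ((center A).under A') (center A) φ
  have hst' : h2 • center A = center A := hst
  have hb2 : ∀ b : (integralClosure ℤ L), h2 • b - g1 • b ∈ center A := by
    intro b
    rw [← Ideal.Quotient.eq]
    exact congrArg (fun f => f (Ideal.Quotient.mk (center A) b)) hφ
  refine ⟨h2⁻¹ * h, H.mul_mem (H.inv_mem hh2) hh, ?_⟩
  rw [mul_assoc, ← hg1]
  have hinv : h2⁻¹ • center A = center A := by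
    conv_lhs => rw [← hst']
    rw [inv_smul_smul]
  apply mem_inertia_of_center A hℓ hA
  · rw [MulAction.mem_stabilizer_iff, mul_smul, hgh', hinv]
  · intro b
    have h3 := hb2 b
    have h4 : h2⁻¹ • (h2 • b - g1 • b) ∈ h2⁻¹ • center A := Ideal.smul_mem_pointwise_smul _ _ _ h3
    rw [hinv] at h4
    have h5 : h2⁻¹ • (h2 • b - g1 • b) = -((h2⁻¹ * g1) • b - b) := by
      have e1 := smul_sub h2⁻¹ (h2 • b) (g1 • b)
      have e2 := inv_smul_smul h2 b
      have e3 := mul_smul h2⁻¹ g1 b
      rw [e1, e2, e3]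
      ring
    rw [h5] at h4
    exact neg_mem_iff.mp h4

end Fermat.Agent.Mink
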