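import Fermat.Agent.Mink.Inertia

/-!
# The absolute Galois group of `ℚ` is generated by inertia
-/

set_option autoImplicit false
set_option linter.style.haveILetI false
set_option linter.unusedSectionVars false

namespace Fermat.Agent.Mink

open Fermat.Agent.Frob NumberField
open scoped Pointwise

variable {L : Type} [Field L] [CharZero L] [Algebra ℚ L]

/-- the inclusion of the rings of integers -/
noncomputable def incl (K : IntermediateField ℚ L) : 𝓞 K →+* integralClosure ℤ L where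
  toFun x := ⟨((x : K) : L), by
    have h := x.2
    exact h.map (IsScalarTower.toAlgHom ℤ K L)⟩
  map_one' := rfl
  map_mul' _ _ := rfl
  map_zero' := rfl
  map_add' _ _ := rfl

theorem exists_inertia_ne_one (K : Type) [Field K] [CharZero K] [inst : Algebra ℚ K]
    [FiniteDimensional ℚ K] [IsGalois ℚ K] (hrank : 1 < Module.finrank ℚ K) :
    ∃ p : ℕ, p.Prime ∧ ∀ P : Ideal (𝓞 K), P.IsPrime → (p : 𝓞 K) ∈ P →
      ∃ τ : K ≃ₐ[ℚ] K, τ ≠ 1 ∧ ∀ x : 𝓞 K, τ • x - x ∈ P := by
  have hinst : inst = DivisionRing.toRatAlgebra := Subsingleton.elim _ _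
  subst hinst
  haveI : NumberField K := ⟨⟩
  obtain ⟨p, hp, hram⟩ := NumberField.exists_not_isUnramifiedAt_int_of_isGalois (K := K)
    (𝒪 := 𝓞 K) hrank
  refine ⟨p, hp, fun P hP hpP => ?_⟩
  have h1 := hram P hP hpP
  have hp0 : P.under ℤ ≠ ⊥ := by
    intro h0
    have : (p : ℤ) ∈ P.under ℤ := by
      rw [Ideal.mem_comap]; simpa using hpP
    rw [h0, Ideal.mem_bot] at this
    exact hp.ne_zero (by exact_mod_cast this)
  rw [← Ideal.ramificationIdx_eq_one_iff,
    ← Ideal.ramificationIdxIn_eq_ramificationIdx (P.under ℤ) _ (K ≃ₐ[ℚ] K),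
    ← Ideal.card_inertia_eq_ramificationIdxIn (G := K ≃ₐ[ℚ] K) (P.under ℤ) P] at h1
  have h2 : Ideal.inertia (K ≃ₐ[ℚ] K) P ≠ ⊥ := by
    intro h0
    apply h1
    rw [h0]
    simp
  obtain ⟨⟨τ, hτ⟩, hτ1⟩ := Subgroup.ne_bot_iff_exists_ne_one.mp h2
  exact ⟨τ, fun h => hτ1 (Subtype.ext h), hτ⟩

attribute [-instance] DivisionRing.toRatAlgebra in
theorem eq_top_of_normal [IsGalois ℚ L] (H : Subgroup (L ≃ₐ[ℚ] L)) [hN : H.Normal]
    (hH : IsOpen (H : Set (L ≃ₐ[ℚ] L)))
    (hI : ∀ ℓ : ℕ, ℓ.Prime → ∀ A : ValuationSubring L, A.LiesOverPrime ℓ →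
      A.inertiaSubgroupIn ℚ ≤ H) : H = ⊤ := by
  have hHc := H.isClosed_of_isOpen hH
  set K := IntermediateField.fixedField H with hK
  have hfix : K.fixingSubgroup = H := InfiniteGalois.fixingSubgroup_fixedField ⟨H, hHc⟩
  have h1 := (InfiniteGalois.isOpen_and_normal_iff_finite_and_isGalois K).mp
    ⟨by rw [hfix]; exact hH, by rw [hfix]; exact hN⟩
  haveI : FiniteDimensional ℚ K := h1.1
  haveI : IsGalois ℚ K := h1.2
  by_contra hne
  have hrank : 1 < Module.finrank ℚ K := by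
    by_contra hle
    push Not at hle
    have h2 : Module.finrank ℚ K = 1 := le_antisymm hle Module.finrank_pos
    rw [IntermediateField.finrank_eq_one_iff] at h2
    apply hne
    rw [← hfix, h2, IntermediateField.fixingSubgroup_bot]
  obtain ⟨p, hp, hram⟩ := exists_inertia_ne_one K hrank
  obtain ⟨A, hA⟩ := exists_liesOverPrime L hp
  obtain ⟨τ, hτ1, hτ⟩ := hram ((center A).comap (incl K)) inferInstance (by
    rw [Ideal.mem_comap, mem_center_iff, map_natCast]
    exact_mod_cast hA)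
  obtain ⟨g, hg⟩ := AlgEquiv.restrictNormalHom_surjective (F := ℚ) (K₁ := K) L τ
  obtain ⟨h, hh, hhg⟩ := exists_mul_mem_inertia A hp hA H hH g (by
    intro b hb
    have hbK : (b : L) ∈ K := by
      rw [hK, IntermediateField.mem_fixedField_iff]
      intro f hf
      exact congrArg Subtype.val (hb f hf)
    have hbi : IsIntegral ℤ (⟨(b : L), hbK⟩ : K) := by
      have := b.2
      rw [mem_integralClosure_iff] at this
      exact (isIntegral_algHom_iff (IsScalarTower.toAlgHom ℤ K L)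
        (algebraMap K L).injective).mp this
    have h3 := hτ ⟨⟨(b : L), hbK⟩, hbi⟩
    rw [Ideal.mem_comap, mem_center_iff] at h3
    rw [mem_center_iff]
    have h4 : ((incl K (τ • (⟨⟨(b : L), hbK⟩, hbi⟩ : 𝓞 K) - (⟨⟨(b : L), hbK⟩, hbi⟩ : 𝓞 K)) :
        integralClosure ℤ L) : L) = ((g • b - b : integralClosure ℤ L) : L) := by
      show ((τ (⟨(b : L), hbK⟩ : K) : K) : L) - (b : L) = g (b : L) - (b : L)
      congr 1
      rw [← hg]
      exact AlgEquiv.restrictNormal_commutes g K ⟨(b : L), hbK⟩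
    exact (congrArg A.valuation h4).symm.trans_lt h3)
  have h5 : g ∈ H := by
    have := hI p hp A hA hhg
    have h6 := H.mul_mem (H.inv_mem hh) this
    rwa [inv_mul_cancel_left] at h6
  apply hτ1
  rw [← hg]
  rw [← hfix] at h5
  ext x
  have h7 : g (x : L) = x := (IntermediateField.mem_fixingSubgroup_iff K g).mp h5 x x.2
  have h8 := AlgEquiv.restrictNormal_commutes g K x
  show ((AlgEquiv.restrictNormal g K x : K) : L) = x
  exact h8.trans h7

/-- conjugates of inertia elements are inertia elements -/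
theorem conj_mem_inertia (A : ValuationSubring L) (g σ : L ≃ₐ[ℚ] L)
    (hσ : σ ∈ A.inertiaSubgroupIn ℚ) : g * σ * g⁻¹ ∈ (g • A).inertiaSubgroupIn ℚ := by
  obtain ⟨⟨σ, hdec⟩, hin, rfl⟩ := hσ
  have hdec' : σ • A = A := hdec
  have hd : g * σ * g⁻¹ ∈ (g • A).decompositionSubgroup ℚ := by
    show (g * σ * g⁻¹) • g • A = g • A
    rw [mul_smul, inv_smul_smul, mul_smul, hdec']
  refine ⟨⟨g * σ * g⁻¹, hd⟩, ?_, rfl⟩
  show _ ∈ MonoidHom.ker _
  rw [MonoidHom.mem_ker]
  ext x
  show (⟨g * σ * g⁻¹, hd⟩ : (g • A).decompositionSubgroup ℚ) • x = x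
  obtain ⟨x, rfl⟩ := IsLocalRing.residue_surjective x
  show IsLocalRing.residue (g • A : ValuationSubring L)
    ((⟨g * σ * g⁻¹, hd⟩ : (g • A).decompositionSubgroup ℚ) • x) = _
  rw [← sub_eq_zero, ← map_sub, IsLocalRing.residue_eq_zero_iff]
  refine ((g • A).valuation_lt_one_iff _).mpr ?_
  show (g • A).valuation ((g * σ * g⁻¹) (x : L) - (x : L)) < 1
  -- translate to `A`
  have hx : g⁻¹ (x : L) ∈ A := by
    have := x.2
    rw [ValuationSubring.mem_pointwise_smul_iff_inv_smul_mem] at this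
    exact this
  have h1 : A.valuation (σ (g⁻¹ (x : L)) - g⁻¹ (x : L)) < 1 := by
    have h2 : (⟨σ, hdec⟩ : A.decompositionSubgroup ℚ) •
        (IsLocalRing.residue A ⟨g⁻¹ (x : L), hx⟩) = IsLocalRing.residue A ⟨g⁻¹ (x : L), hx⟩ := by
      have := DFunLike.congr_fun (MonoidHom.mem_ker.mp hin)
        (IsLocalRing.residue A ⟨g⁻¹ (x : L), hx⟩)
      exact this
    rw [← IsLocalRing.ResidueField.residue_smul, ← sub_eq_zero, ← map_sub,
      IsLocalRing.residue_eq_zero_iff] at h2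
    exact (A.valuation_lt_one_iff _).mp h2
  -- nonunits of `g • A`
  rw [← mem_nonunits_iff_valuation] at h1 ⊢
  rw [ValuationSubring.mem_nonunits_iff_or] at h1 ⊢
  rcases h1 with h1 | h1
  · left
    have h3 := congrArg g h1
    rw [map_sub, map_zero] at h3
    have e1 : g (g⁻¹ (x : L)) = x := by
      rw [← AlgEquiv.mul_apply, mul_inv_cancel, AlgEquiv.one_apply]
    rw [e1] at h3
    exact h3
  · right
    intro h3
    apply h1
    rw [ValuationSubring.mem_pointwise_smul_iff_inv_smul_mem] at h3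
    have e2 : g⁻¹ • ((g * σ * g⁻¹) (x : L) - (x : L))⁻¹ = (σ (g⁻¹ (x : L)) - g⁻¹ (x : L))⁻¹ := by
      rw [AlgEquiv.smul_def, map_inv₀, map_sub]
      congr 2
      exact g.symm_apply_apply _
    rwa [e2] at h3

lemma liesOverPrime_smul (A : ValuationSubring L) (g : L ≃ₐ[ℚ] L) {ℓ : ℕ}
    (hA : A.LiesOverPrime ℓ) : (g • A).LiesOverPrime ℓ := by
  have h1 : (ℓ : L) ∈ A.nonunits := hA
  show (ℓ : L) ∈ (g • A).nonunits
  rw [ValuationSubring.mem_nonunits_iff_or] at h1 ⊢
  rcases h1 with h1 | h1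
  · exact Or.inl h1
  · right
    intro h3
    apply h1
    rw [ValuationSubring.mem_pointwise_smul_iff_inv_smul_mem] at h3
    have : g⁻¹ • ((ℓ : L)⁻¹) = (ℓ : L)⁻¹ := by
      rw [AlgEquiv.smul_def, map_inv₀, map_natCast]
    rwa [this] at h3

/-- **Minkowski**: an open subgroup of the absolute Galois group of `ℚ` containing all the inertia
groups is everything. -/
theorem eq_top_of_inertia_le [IsGalois ℚ L] (H : Subgroup (L ≃ₐ[ℚ] L))
    (hH : IsOpen (H : Set (L ≃ₐ[ℚ] L)))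
    (hI : ∀ ℓ : ℕ, ℓ.Prime → ∀ A : ValuationSubring L, A.LiesOverPrime ℓ →
      A.inertiaSubgroupIn ℚ ≤ H) : H = ⊤ := by
  have h1 : IsOpen (H.normalCore : Set (L ≃ₐ[ℚ] L)) := by
    haveI : Finite ((L ≃ₐ[ℚ] L) ⧸ H) := Subgroup.quotient_finite_of_isOpen H hH
    haveI : H.FiniteIndex := Subgroup.finiteIndex_of_finite_quotient
    apply Subgroup.isOpen_of_isClosed_of_finiteIndex
    have : (H.normalCore : Set (L ≃ₐ[ℚ] L)) = ⋂ g : L ≃ₐ[ℚ] L, (fun h => g * h * g⁻¹) ⁻¹' H := by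
      ext h
      simp only [Set.mem_iInter, Set.mem_preimage, SetLike.mem_coe]
      rfl
    rw [this]
    apply isClosed_iInter
    intro g
    exact (H.isClosed_of_isOpen hH).preimage (by fun_prop)
  have h2 := eq_top_of_normal H.normalCore h1 (by
    intro ℓ hℓ A hA σ hσ g
    exact hI ℓ hℓ (g • A) (liesOverPrime_smul A g hA) (conj_mem_inertia A g σ hσ))
  exact top_le_iff.mp (h2 ▸ H.normalCore_le)

end Fermat.Agent.Mink
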